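import Fermat.Agent.S12.Velu.Divisible
import Fermat.Agent.S13.CU.FreyInputs

/-!
# Block [V], assembly: the points over `ℚ̄` of a curve over `ℚ` with `Δ ≠ 0` form a divisible group

Instantiation of `Velu/Divisible.exists_nsmul_eq` at `F = ℚ̄ ⊆ ℂ`.
-/

set_option autoImplicit false

noncomputable section

open WeierstrassCurve WeierstrassCurve.Affine WeierstrassCurve.Affine.Point

namespace Fermat.Agent.S12.V5.DivQbar

local notation "Qbar" => AlgebraicClosure ℚ

/-- `W₀(ℚ̄)` is divisible for a curve `W₀` over `ℚ` with `Δ ≠ 0`. -/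
theorem exists_nsmul_eq_rat (W₀ : WeierstrassCurve ℚ) (hW : W₀.Δ ≠ 0) {n : ℕ} (hn : 0 < n)
    (x : (W₀⁄Qbar).Point) : ∃ y : (W₀⁄Qbar).Point, n • y = x := by
  let _ : Algebra Qbar ℂ := Fermat.Agent.S13.CU.Descent.qbarAlgebra
  exact Fermat.Agent.S12.Velu.exists_nsmul_eq W₀ Qbar
    (Fermat.Agent.S13.CU.FreyInputs.baseChange_Δ_ne_zero W₀ hW) hn x

end Fermat.Agent.S12.V5.DivQbar
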