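import Fermat.Agent.S12.V5.TorsGlue
import Fermat.Agent.S12.V5.DivQbar
import Fermat.Agent.S12.V3.PLevel
import Fermat.Agent.S12.V3.PlaceAll
import Fermat.Agent.S12.V4.TorsionBound
import Fermat.Agent.S12.V1.FreyCyclo
import Fermat.Agent.S12.Tower.Abs
import Fermat.Agent.S12.Tower.Adm
import Fermat.Agent.S12.Tower.StepOf
import Fermat.Agent.S58.Mult.Unipotent

/-!
# Block [V]: the assembly of the isogeny tower

`P : FreyPackage`, `N ⊆ E[p]` a Galois-stable cofixed line of the Frey curve `E`.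

A *level* `Lev P N` is an integral model `W` (`Δ ≠ 0`; away from `p`: semistable, bad primes = the
primes of `abc`) with a Galois-fixed point `Q` of order `p`, an isogeny `θ` from the Frey curve
satisfying the `p`-adic invariant `PLevel.IsLevel`, and cyclotomic quotient `E_W[p] / ⟨Q⟩`.

Inputs (hypotheses here, theorems of other files):
* `ZeroHyp`  : the level `E / N`                                   (`Level/FreyBase`);
* `NextHyp`  : the quotient of a level by a stable subgroup of order `p` (`Level/NextLevel`);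
* `Away`     : open stabilisers, **(loc)** and `hout` away from `p`      (`Level/Away`);
* `ExtVanishingCts p` (statement S14).

Output: `false_of_cofixed`, through `Tower.false_of_tower`.
-/

set_option autoImplicit false
set_option linter.unusedSectionVars false

noncomputable section

open WeierstrassCurve WeierstrassCurve.Affine WeierstrassCurve.Affine.Point

namespace Fermat.Agent.S12.V5.Level

open Fermat.Agent.S13.Global Fermat.Agent.S12.V3.PLevel Fermat.Agent.S12.V3.FreyK1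
  Fermat.Agent.S12.V5.TorsGlue Fermat.Agent.S12.Tower ExtCitation
open Fermat.Agent.S58.Mult.Unipotent (EQ)

local notation "Qbar" => AlgebraicClosure ℚ
local notation "GQ" => (AlgebraicClosure ℚ ≃ₐ[ℚ] AlgebraicClosure ℚ)

/-! ### The quotient interface from a complement -/

section QuotOfCompl

variable {W' : Affine ℚ} {p : ℕ} [Fact p.Prime] {E' : Type*} [AddCommGroup E']
  [DistribMulAction GQ E']

/-- The quotient interface `Tower.Quot` from a complement `M` of the line `⟨q⟩` in `W'[p]`. -/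
theorem quot_of_isCompl {q : Tors W' p} {M : Submodule (ZMod p) (Tors W' p)}
    (hc : IsCompl (Submodule.span (ZMod p) {q}) M)
    {φ : (W'⁄Qbar).Point →+ E'} {ψ : E' →+ (W'⁄Qbar).Point}
    (hφsurj : Function.Surjective φ) (hφker : ∀ x, φ x = 0 ↔ x ∈ subOfTors M)
    (hψφ : ∀ x, ψ (φ x) = p • x) (hψeq : ∀ (σ : GQ) (x : E'), ψ (σ • x) = σ • ψ x)
    (hdiv : ∀ x : (W'⁄Qbar).Point, ∃ y : (W'⁄Qbar).Point, p • y = x) :
    Quot p (q : (W'⁄Qbar).Point) (subOfTors M) φ ψ where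
  φ_surj := hφsurj
  φ_ker := hφker
  ψ_φ := hψφ
  ψ_equiv := hψeq
  div := hdiv
  dec := fun x hx => by
    have hv : (⟨x, (mem_tors_iff x).mpr hx⟩ : Tors W' p) ∈ Submodule.span (ZMod p) {q} ⊔ M := by
      rw [hc.sup_eq_top]
      exact Submodule.mem_top
    obtain ⟨c, hcq, m, hmM, hsum⟩ := Submodule.mem_sup.mp hv
    obtain ⟨a, rfl⟩ := Submodule.mem_span_singleton.mp hcq
    refine ⟨(a.val : ℤ), (m : (W'⁄Qbar).Point), coe_mem_subOfTors hmM, ?_⟩
    have h1 : (((a • q + m : Tors W' p)) : (W'⁄Qbar).Point) = x := congrArg Subtype.val hsum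
    rw [natCast_zsmul, ← coe_zmod_smul]
    exact h1.symm
  indep := fun m hm hmQ => by
    obtain ⟨v, hvM, rfl⟩ := hm
    obtain ⟨k, hk⟩ := AddSubgroup.mem_zmultiples_iff.mp hmQ
    have hv : v = (k : ZMod p) • q := by
      apply Subtype.ext
      rw [coe_intCast_smul]
      exact hk.symm
    have hvq : v ∈ Submodule.span (ZMod p) {q} := by
      rw [hv]
      exact Submodule.smul_mem _ _ (Submodule.mem_span_singleton_self q)
    have h0 : v = 0 := (Submodule.disjoint_def.mp hc.disjoint) v hvq hvM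
    rw [h0]
    rfl

end QuotOfCompl

/-! ### Levels -/

/-- A level of the tower over the Frey curve. -/
structure Lev (P : FreyPackage) [Fact P.p.Prime]
    (N : Submodule (ZMod P.p) (Tors P.freyCurve P.p)) where
  /-- the integral model -/
  W : WeierstrassCurve ℤ
  hΔ : W.Δ ≠ 0
  bad : ∀ ℓ : ℕ, ℓ.Prime → ℓ ≠ P.p → ((ℓ : ℤ) ∣ W.Δ ↔ (ℓ : ℤ) ∣ P.a * P.b * P.c)
  semi : ∀ ℓ : ℕ, ℓ.Prime → ℓ ≠ P.p → (ℓ : ℤ) ∣ W.Δ → ¬ (ℓ : ℤ) ∣ W.c₄
  /-- the marked point -/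
  Q : ((EQ W)⁄Qbar).Point
  fixQ : ∀ σ : GQ, σ • Q = Q
  ordQ : addOrderOf Q = P.p
  /-- the exponent of the kernel of the isogeny from the Frey curve -/
  n : ℕ
  /-- the isogeny from the Frey curve -/
  θ : (P.freyCurve⁄Qbar).Point →+ ((EQ W)⁄Qbar).Point
  lvl : IsLevel P N n θ
  cyc : ∀ (σ : GQ) (x : ((EQ W)⁄Qbar).Point), P.p • x = 0 →
    σ • x - cycloExp P.p σ • x ∈ AddSubgroup.zmultiples Q

/-- What the analysis away from `p` provides for a level. -/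
structure Away (p : ℕ) [Fact p.Prime] (W : WeierstrassCurve ℤ) (Q : ((EQ W)⁄Qbar).Point) :
    Prop where
  openStab : ∀ x : ((EQ W)⁄Qbar).Point, OpenStab x
  loc : ∀ ℓ : ℕ, ℓ.Prime → ℓ ≠ p → ∀ A : ValuationSubring Qbar, A.LiesOverPrime ℓ →
    ∀ σ ∈ A.inertiaSubgroupIn ℚ, ∀ x : ((EQ W)⁄Qbar).Point,
      σ • x - x ∈ AddSubgroup.zmultiples Q → σ • x = x
  out : ∀ ℓ : ℕ, ℓ.Prime → ℓ ≠ p → ∀ A : ValuationSubring Qbar, A.LiesOverPrime ℓ →
    ∃ Z : Submodule (ZMod p) (Tors (EQ W) p),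
      (∀ z ∈ Z, (z : ((EQ W)⁄Qbar).Point) ≠ Q) ∧ ∀ σ ∈ A.inertiaSubgroupIn ℚ,
        (∀ x : Tors (EQ W) p, σ • x - x ∈ Z) ∧ ∀ z ∈ Z, σ • z = z

/-- The existence of the next level (literal of `Level/NextLevel.exists_next_level`). -/
def NextHyp (p : ℕ) : Prop :=
  ∀ (W : WeierstrassCurve ℤ), W.Δ ≠ 0 →
    (∀ ℓ : ℕ, ℓ.Prime → ℓ ≠ p → (ℓ : ℤ) ∣ W.Δ → ¬ (ℓ : ℤ) ∣ W.c₄) →
    ∀ (C : AddSubgroup ((EQ W)⁄Qbar).Point), Nat.card C = p →
    (∀ σ : GQ, ∀ Q ∈ C, σ • Q ∈ C) →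
    ∃ (W₁ : WeierstrassCurve ℤ) (φ : ((EQ W)⁄Qbar).Point →+ ((EQ W₁)⁄Qbar).Point)
      (ψ : ((EQ W₁)⁄Qbar).Point →+ ((EQ W)⁄Qbar).Point),
      W₁.Δ ≠ 0 ∧
      (∀ ℓ : ℕ, ℓ.Prime → ℓ ≠ p → ((ℓ : ℤ) ∣ W₁.Δ ↔ (ℓ : ℤ) ∣ W.Δ)) ∧
      (∀ ℓ : ℕ, ℓ.Prime → ℓ ≠ p → (ℓ : ℤ) ∣ W₁.Δ → ¬ (ℓ : ℤ) ∣ W₁.c₄) ∧
      Function.Surjective φ ∧ (∀ P, φ P = 0 ↔ P ∈ C) ∧
      (∀ (σ : GQ) (P : ((EQ W)⁄Qbar).Point), φ (σ • P) = σ • φ P) ∧
      (∀ P : ((EQ W)⁄Qbar).Point, ψ (φ P) = p • P) ∧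
      (∀ (σ : GQ) (P : ((EQ W₁)⁄Qbar).Point), ψ (σ • P) = σ • ψ P)

/-- The existence of the level `E / N` (literal of `Level/FreyBase.exists_level_zero`). -/
def ZeroHyp (P : FreyPackage) (N : Submodule (ZMod P.p) (Tors P.freyCurve P.p)) : Prop :=
  ∃ (W₀ : WeierstrassCurve ℤ) (φ : (P.freyCurve⁄Qbar).Point →+ ((EQ W₀)⁄Qbar).Point)
    (ψ : ((EQ W₀)⁄Qbar).Point →+ (P.freyCurve⁄Qbar).Point),
    W₀.Δ ≠ 0 ∧
    (∀ ℓ : ℕ, ℓ.Prime → ℓ ≠ P.p → ((ℓ : ℤ) ∣ W₀.Δ ↔ (ℓ : ℤ) ∣ P.a * P.b * P.c)) ∧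
    (∀ ℓ : ℕ, ℓ.Prime → ℓ ≠ P.p → (ℓ : ℤ) ∣ W₀.Δ → ¬ (ℓ : ℤ) ∣ W₀.c₄) ∧
    Function.Surjective φ ∧
    (∀ x, φ x = 0 ↔ ∃ y : Tors P.freyCurve P.p, y ∈ N ∧ (y : (P.freyCurve⁄Qbar).Point) = x) ∧
    (∀ (σ : GQ) (x : (P.freyCurve⁄Qbar).Point), φ (σ • x) = σ • φ x) ∧
    (∀ x : (P.freyCurve⁄Qbar).Point, ψ (φ x) = P.p • x) ∧
    (∀ (σ : GQ) (x : ((EQ W₀)⁄Qbar).Point), ψ (σ • x) = σ • ψ x)

theorem EQ_Δ_ne_zero {W : WeierstrassCurve ℤ} (hΔ : W.Δ ≠ 0) : (EQ W).Δ ≠ 0 := by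
  show (W.map (Int.castRingHom ℚ)).Δ ≠ 0
  rw [WeierstrassCurve.map_Δ]
  intro h
  apply hΔ
  have h' : ((W.Δ : ℤ) : ℚ) = ((0 : ℤ) : ℚ) := by rw [Int.cast_zero]; exact h
  exact Int.cast_injective h'

section Main

variable {P : FreyPackage} [Fact P.p.Prime] {N : Submodule (ZMod P.p) (Tors P.freyCurve P.p)}

theorem Lev.nsmul_Q (L : Lev P N) : P.p • L.Q = 0 := by
  have := addOrderOf_nsmul_eq_zero L.Q
  rwa [L.ordQ] at this

theorem Lev.Q_ne_zero (L : Lev P N) : L.Q ≠ 0 := by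
  intro h0
  have h1 := L.ordQ
  rw [h0, addOrderOf_zero] at h1
  exact P.pp.one_lt.ne h1

/-- **`hgood`**: every level is a good level of the abstract tower. -/
theorem Lev.good (L : Lev P N) (hN : IsGaloisStable ℚ N) (hbot : N ≠ ⊥) (htop : N ≠ ⊤)
    (hcof : ∀ (σ : GQ) (x : Tors P.freyCurve P.p), σ • x - x ∈ N)
    (haway : Away P.p L.W L.Q) : Good P.p L.Q where
  fixQ := L.fixQ
  ordQ := L.ordQ
  openStab := haway.openStab
  loc := by
    intro l hl A hA σ hσ x hx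
    by_cases hlp : l = P.p
    · subst hlp
      exact L.lvl.locFree hA
        (Fermat.Agent.S12.V3.PlaceAll.exists_placeData P N hN hbot htop A hA
          (fun τ _ => hcof τ)) L.nsmul_Q L.fixQ hσ x hx
    · exact haway.loc l hl hlp A hA σ hσ x hx

/-- The marked point as a torsion point. -/
def Lev.q (L : Lev P N) : Tors (EQ L.W) P.p := ⟨L.Q, (mem_tors_iff L.Q).mpr L.nsmul_Q⟩

theorem Lev.coe_q (L : Lev P N) : ((L.q : Tors (EQ L.W) P.p) : ((EQ L.W)⁄Qbar).Point) = L.Q := rfl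

theorem Lev.q_ne_zero (L : Lev P N) : L.q ≠ 0 := fun h => L.Q_ne_zero (congrArg Subtype.val h)

theorem Lev.card_tors (L : Lev P N) : Nat.card (Tors (EQ L.W) P.p) = P.p ^ 2 :=
  Fermat.Agent.S13.CU.FreyInputs.torsionCard_rat (EQ L.W) (EQ_Δ_ne_zero L.hΔ) P.hppos

/-- **The Galois-stable complement of `⟨Q⟩`** at a level (S14 + the local data). -/
theorem Lev.exists_compl (L : Lev P N) (hN : IsGaloisStable ℚ N) (hbot : N ≠ ⊥) (htop : N ≠ ⊤)
    (hcof : ∀ (σ : GQ) (x : Tors P.freyCurve P.p), σ • x - x ∈ N)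
    (hS14 : ExtVanishingCts P.p) (haway : Away P.p L.W L.Q) :
    ∃ M : Submodule (ZMod P.p) (Tors (EQ L.W) P.p),
      IsCompl (Submodule.span (ZMod P.p) {L.q}) M ∧ (∀ σ : GQ, ∀ x ∈ M, σ • x ∈ M) ∧
      ∀ σ : GQ, ∀ x ∈ M, σ • x = (cycloExp P.p σ : ZMod P.p) • x := by
  have : SMulCommClass GQ (ZMod P.p) (Tors (EQ L.W) P.p) := smulCommClass_tors
  refine exists_stable_compl hS14 L.card_tors L.q_ne_zero (fun σ => Subtype.ext (L.fixQ σ))
    ?_ ?_ ?_ ?_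
  · -- the cyclotomic quotient
    intro σ x
    obtain ⟨k, hk⟩ := AddSubgroup.mem_zmultiples_iff.mp (L.cyc σ x (nsmul_coe x))
    have : σ • x - (cycloExp P.p σ : ZMod P.p) • x = (k : ZMod P.p) • L.q := by
      apply Subtype.ext
      rw [coe_intCast_smul, L.coe_q, hk]
      show σ • (x : ((EQ L.W)⁄Qbar).Point)
        - (((cycloExp P.p σ : ZMod P.p) • x : Tors (EQ L.W) P.p) : ((EQ L.W)⁄Qbar).Point) = _
      rw [coe_natCast_smul]
    rw [this]
    exact Submodule.smul_mem _ _ (Submodule.mem_span_singleton_self _)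
  · -- away from `p`
    intro ℓ hℓ hℓp A hA
    obtain ⟨Z, hZQ, hZ⟩ := haway.out ℓ hℓ hℓp A hA
    exact ⟨Z, fun h => hZQ _ h rfl, hZ⟩
  · -- at `p`
    intro A hA
    obtain ⟨Z, hZp, hQZ, ⟨z, hzZ, hz0⟩, hZstab⟩ := L.lvl.exists_line hA
      (Fermat.Agent.S12.V3.PlaceAll.exists_placeData P N hN hbot htop A hA (fun τ _ => hcof τ))
      L.Q_ne_zero L.nsmul_Q L.fixQ
    refine ⟨torsOfSub Z, fun h => hQZ h, ?_, ?_⟩
    · intro hbotZ
      have hmem : (⟨z, (mem_tors_iff z).mpr (hZp z hzZ)⟩ : Tors (EQ L.W) P.p) ∈ torsOfSub Z := hzZ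
      rw [hbotZ, Submodule.mem_bot] at hmem
      exact hz0 (congrArg Subtype.val hmem)
    · intro σ hσ v hv
      exact hZstab σ hσ _ hv
  · -- open stabilisers
    intro v
    obtain ⟨K, hK, hKv⟩ := haway.openStab (v : ((EQ L.W)⁄Qbar).Point)
    exact ⟨K, hK, fun σ hσ => Subtype.ext (hKv σ hσ)⟩

/-- **`hstep`**: every level has a next level, one `Step` higher. -/
theorem Lev.exists_step (L : Lev P N) (hN : IsGaloisStable ℚ N) (hbot : N ≠ ⊥) (htop : N ≠ ⊤)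
    (hcof : ∀ (σ : GQ) (x : Tors P.freyCurve P.p), σ • x - x ∈ N)
    (hS14 : ExtVanishingCts P.p) (hnext : NextHyp P.p) (haway : Away P.p L.W L.Q) :
    ∃ (L' : Lev P N) (ψ : ((EQ L'.W)⁄Qbar).Point →+ ((EQ L.W)⁄Qbar).Point),
      Step P.p L.Q L'.Q ψ := by
  obtain ⟨M, hc, hMstab, hMcyc⟩ := L.exists_compl hN hbot htop hcof hS14 haway
  -- the cardinality of `M`
  have hMtop : M ≠ ⊤ := by
    intro h
    have h1 : Submodule.span (ZMod P.p) {L.q} = ⊥ := by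
      have := hc.disjoint
      rw [h] at this
      exact disjoint_top.mp this
    exact L.q_ne_zero ((Submodule.span_singleton_eq_bot).mp h1)
  have hMbot : M ≠ ⊥ := by
    intro h
    have h1 : Submodule.span (ZMod P.p) {L.q} = ⊤ := by
      have := hc.codisjoint
      rw [h] at this
      exact codisjoint_bot.mp this
    have h2 := card_span_singleton (p := P.p) L.q_ne_zero
    rw [h1] at h2
    have h3 : Nat.card (⊤ : Submodule (ZMod P.p) (Tors (EQ L.W) P.p)) = P.p ^ 2 := by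
      rw [← L.card_tors]
      exact Nat.card_congr (Submodule.topEquiv (R := ZMod P.p)).toEquiv
    rw [h3] at h2
    have h4 : P.p * P.p = P.p * 1 := by rw [mul_one, ← sq]; exact h2
    exact P.pp.one_lt.ne' (Nat.eq_of_mul_eq_mul_left P.hppos h4)
  have hcardM : Nat.card M = P.p :=
    Fermat.Agent.S13.LineAlgebra.card_eq_of_ne_bot_of_ne_top L.card_tors M hMbot hMtop
  -- the next model
  obtain ⟨W₁, φ, ψ, hΔ₁, hbad₁, hsemi₁, hφsurj, hφker, hφeq, hψφ, hψeq⟩ :=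
    hnext L.W L.hΔ L.semi (subOfTors M) (by rw [card_subOfTors, hcardM])
      (fun σ x hx => subOfTors_stable hMstab σ hx)
  have hquot : Quot P.p L.Q (subOfTors M) φ ψ :=
    quot_of_isCompl (q := L.q) hc hφsurj hφker hψφ hψeq
      (fun x => Fermat.Agent.S12.V5.DivQbar.exists_nsmul_eq_rat (EQ L.W) (EQ_Δ_ne_zero L.hΔ)
        P.hppos x)
  -- the kernel is killed by `p` and cyclotomic
  have hM : ∀ m : ((EQ L.W)⁄Qbar).Point, m ∈ subOfTors M →
      P.p • m = 0 ∧ ∀ σ : GQ, σ • m = cycloExp P.p σ • m := by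
    rintro m ⟨v, hv, rfl⟩
    refine ⟨nsmul_coe v, fun σ => ?_⟩
    have h1 : ((σ • v : Tors (EQ L.W) P.p) : ((EQ L.W)⁄Qbar).Point)
        = (((cycloExp P.p σ : ZMod P.p) • v : Tors (EQ L.W) P.p) : ((EQ L.W)⁄Qbar).Point) :=
      congrArg Subtype.val (hMcyc σ v hv)
    rw [coe_natCast_smul] at h1
    exact h1
  refine ⟨{ W := W₁
            hΔ := hΔ₁
            bad := fun ℓ hℓ hℓp => (hbad₁ ℓ hℓ hℓp).trans (L.bad ℓ hℓ hℓp)
            semi := hsemi₁
            Q := φ L.Q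
            fixQ := Quot.fixed_quot hφeq L.fixQ
            ordQ := hquot.addOrderOf_quot P.pp L.ordQ
            n := L.n + 1
            θ := φ.comp L.θ
            lvl := L.lvl.comp φ hφeq hφsurj (fun m hm => hM m ((hφker m).mp hm))
            cyc := fun σ x hx =>
              hquot.cyclo_of_quot (fun m hm => (hM m hm).2 σ) hx }, ψ, hquot.step_of_quot⟩

/-- **Level zero**: the quotient of the Frey curve by the cofixed line `N`, marked by the image of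
a torsion point outside `N`. -/
theorem exists_lev (hN : IsGaloisStable ℚ N) (hbot : N ≠ ⊥) (htop : N ≠ ⊤)
    (hcof : ∀ (σ : GQ) (x : Tors P.freyCurve P.p), σ • x - x ∈ N) (hzero : ZeroHyp P N) :
    Nonempty (Lev P N) := by
  obtain ⟨W₀, φ, ψ, hΔ₀, hbad₀, hsemi₀, hφsurj, hφker, hφeq, hψφ, hψeq⟩ := hzero
  -- a torsion point outside `N`
  obtain ⟨x₀, hx₀⟩ : ∃ x₀ : Tors P.freyCurve P.p, x₀ ∉ N := by
    by_contra h
    push Not at h
    exact htop (eq_top_iff.mpr fun x _ => h x)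
  have hV : Nat.card (Tors P.freyCurve P.p) = P.p ^ 2 :=
    Fermat.Agent.S13.CU.FreyInputs.natCard_frey P
  have hc : IsCompl (Submodule.span (ZMod P.p) {x₀}) N := isCompl_span_of_not_mem hV hx₀ hbot
  have hquot : Quot P.p (x₀ : (P.freyCurve⁄Qbar).Point) (subOfTors N) φ ψ :=
    quot_of_isCompl hc hφsurj hφker hψφ hψeq
      (fun x => Fermat.Agent.S12.V5.DivQbar.exists_nsmul_eq_rat P.freyCurve
        (Fermat.Agent.S13.CU.FreyInputs.frey_Δ_ne_zero P) P.hppos x)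
  have hx₀0 : (x₀ : (P.freyCurve⁄Qbar).Point) ≠ 0 := by
    intro h
    apply hx₀
    have h0 : x₀ = 0 := Subtype.ext h
    rw [h0]
    exact N.zero_mem
  have hord : addOrderOf (x₀ : (P.freyCurve⁄Qbar).Point) = P.p :=
    addOrderOf_eq_prime (nsmul_coe x₀) hx₀0
  have hcycN := Fermat.Agent.S12.V1.FreyCyclo.cyclo_of_cofixed P N hN hbot htop hcof
  have hM : ∀ m : (P.freyCurve⁄Qbar).Point, m ∈ subOfTors N →
      ∀ σ : GQ, σ • m = cycloExp P.p σ • m := by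
    rintro m ⟨v, hv, rfl⟩ σ
    have h1 : ((σ • v : Tors P.freyCurve P.p) : (P.freyCurve⁄Qbar).Point)
        = ((((cycloExp P.p σ : ℕ) : ZMod P.p) • v : Tors P.freyCurve P.p) :
          (P.freyCurve⁄Qbar).Point) :=
      congrArg Subtype.val (hcycN σ v hv)
    rw [coe_natCast_smul] at h1
    exact h1
  have hfix : ∀ σ : GQ, σ • φ (x₀ : (P.freyCurve⁄Qbar).Point) = φ x₀ := by
    intro σ
    rw [← hφeq]
    have h1 : φ (σ • (x₀ : (P.freyCurve⁄Qbar).Point) - x₀) = 0 :=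
      (hφker _).mpr ⟨σ • x₀ - x₀, hcof σ x₀, rfl⟩
    rw [map_sub, sub_eq_zero] at h1
    exact h1
  exact ⟨{ W := W₀
           hΔ := hΔ₀
           bad := hbad₀
           semi := hsemi₀
           Q := φ x₀
           fixQ := hfix
           ordQ := hquot.addOrderOf_quot P.pp hord
           n := 1
           θ := φ
           lvl := IsLevel.base hφeq hφsurj (fun x hx => (hφker x).mp hx)
           cyc := fun σ x hx => hquot.cyclo_of_quot (fun m hm => hM m hm σ) hx }⟩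

/-- **`hB`**: one good prime `l0 ∤ p a b c` bounds the Galois-fixed points of `p`-power order of
all the levels. -/
theorem exists_bound (P : FreyPackage) [Fact P.p.Prime]
    (N : Submodule (ZMod P.p) (Tors P.freyCurve P.p)) :
    ∃ B : ℕ, ∀ (L : Lev P N) (R : ((EQ L.W)⁄Qbar).Point), (∀ σ : GQ, σ • R = R) →
      ∀ n : ℕ, addOrderOf R = P.p ^ n → P.p ^ n ≤ B := by
  obtain ⟨l0, hl0ge, hl0⟩ :=
    Nat.exists_infinite_primes (max (P.a * P.b * P.c).natAbs P.p + 1)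
  have hl0p : l0 ≠ P.p := by
    have := le_max_right (P.a * P.b * P.c).natAbs P.p
    omega
  have hl0abc : ¬ (l0 : ℤ) ∣ P.a * P.b * P.c := by
    intro h
    have h1 : l0 ∣ (P.a * P.b * P.c).natAbs := Int.natCast_dvd.mp h
    have h2 := Nat.le_of_dvd (Int.natAbs_pos.mpr P.habc0) h1
    have := le_max_left (P.a * P.b * P.c).natAbs P.p
    omega
  refine ⟨2 * l0 + 1, fun L R hR n hn => ?_⟩
  have hgood : L.W.IsGoodPrimeFor l0 := fun h => hl0abc ((L.bad l0 hl0 hl0p).mp h)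
  have hcop : (P.p ^ n).Coprime l0 :=
    Nat.Coprime.pow_left n ((Nat.coprime_primes P.pp hl0).mpr (Ne.symm hl0p))
  exact Fermat.Agent.S12.V4.TorsionBound.card_le L.W hl0 hgood hcop R hR hn

/-- **The Frey curve has no Galois-stable cofixed line**, from the model inputs, the analysis away
from `p` and the Ext vanishing. -/
theorem false_of_cofixed (hN : IsGaloisStable ℚ N) (hbot : N ≠ ⊥) (htop : N ≠ ⊤)
    (hcof : ∀ (σ : GQ) (x : Tors P.freyCurve P.p), σ • x - x ∈ N)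
    (hS14 : ExtVanishingCts P.p) (hzero : ZeroHyp P N) (hnext : NextHyp P.p)
    (haway : ∀ L : Lev P N, Away P.p L.W L.Q) : False := by
  obtain ⟨L₀⟩ := exists_lev hN hbot htop hcof hzero
  obtain ⟨B, hB⟩ := exists_bound P N
  exact false_of_tower (𝓛 := Lev P N) (fun L => ((EQ L.W)⁄Qbar).Point) (fun L => L.Q) P.pp
    (fun L => L.good hN hbot htop hcof (haway L))
    (fun L => L.exists_step hN hbot htop hcof hS14 hnext (haway L)) B hB L₀

end Main

end Fermat.Agent.S12.V5.Level
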