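import Fermat.Agent.S13.Global

/-!
# Block [V], assembly: glue between `Tors W' p` and subgroups of the points

`Tors W' p` is the `p`-torsion of `W'(ℚ̄)` as a `ZMod p`-module with its Galois action (prelude
instances).  This file collects the coercion lemmas and the two dictionaries

* `torsOfSub Z` : the submodule of `Tors W' p` of the torsion points lying in `Z ≤ W'(ℚ̄)`;
* `subOfTors M` : the subgroup of `W'(ℚ̄)` of the points of `M ≤ Tors W' p`.
-/

set_option autoImplicit false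
set_option linter.unusedSectionVars false

noncomputable section

open WeierstrassCurve WeierstrassCurve.Affine WeierstrassCurve.Affine.Point

namespace Fermat.Agent.S12.V5.TorsGlue

open Fermat.Agent.S13.Global

local notation "Qbar" => AlgebraicClosure ℚ
local notation "GQ" => (AlgebraicClosure ℚ ≃ₐ[ℚ] AlgebraicClosure ℚ)

variable {W' : Affine ℚ} {p : ℕ}

theorem coe_galois_smul (σ : GQ) (v : Tors W' p) :
    ((σ • v : Tors W' p) : (W'⁄Qbar).Point) = σ • (v : (W'⁄Qbar).Point) := rfl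

theorem mem_tors_iff (x : (W'⁄Qbar).Point) :
    x ∈ Submodule.torsionBy ℤ (W'⁄Qbar).Point p ↔ p • x = 0 := by
  rw [Submodule.mem_torsionBy_iff, natCast_zsmul]

theorem nsmul_coe (v : Tors W' p) : p • (v : (W'⁄Qbar).Point) = 0 :=
  (mem_tors_iff _).mp v.2

theorem galois_smul_nsmul (σ : GQ) (n : ℕ) (x : (W'⁄Qbar).Point) : σ • (n • x) = n • (σ • x) :=
  map_nsmul (DistribSMul.toAddMonoidHom (W'⁄Qbar).Point σ) n x

theorem galois_smul_zsmul (σ : GQ) (n : ℤ) (x : (W'⁄Qbar).Point) : σ • (n • x) = n • (σ • x) :=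
  map_zsmul (DistribSMul.toAddMonoidHom (W'⁄Qbar).Point σ) n x

theorem coe_natCast_smul (n : ℕ) (v : Tors W' p) :
    (((n : ZMod p) • v : Tors W' p) : (W'⁄Qbar).Point) = n • (v : (W'⁄Qbar).Point) := by
  rw [Nat.cast_smul_eq_nsmul]
  rfl

theorem coe_intCast_smul (n : ℤ) (v : Tors W' p) :
    (((n : ZMod p) • v : Tors W' p) : (W'⁄Qbar).Point) = n • (v : (W'⁄Qbar).Point) := by
  rw [Int.cast_smul_eq_zsmul]
  rfl

theorem coe_zmod_smul [NeZero p] (a : ZMod p) (v : Tors W' p) :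
    ((a • v : Tors W' p) : (W'⁄Qbar).Point) = a.val • (v : (W'⁄Qbar).Point) := by
  conv_lhs => rw [← ZMod.natCast_zmod_val a]
  exact coe_natCast_smul a.val v

/-- The Galois action commutes with the `ZMod p`-module structure. -/
theorem smulCommClass_tors [NeZero p] : SMulCommClass GQ (ZMod p) (Tors W' p) where
  smul_comm σ a v := by
    apply Subtype.ext
    rw [coe_galois_smul, coe_zmod_smul, coe_zmod_smul, coe_galois_smul, galois_smul_nsmul]

/-- The torsion points lying in a subgroup. -/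
def torsOfSub [NeZero p] (Z : AddSubgroup (W'⁄Qbar).Point) : Submodule (ZMod p) (Tors W' p) where
  carrier := {v | (v : (W'⁄Qbar).Point) ∈ Z}
  zero_mem' := Z.zero_mem
  add_mem' := fun {a b} ha hb => Z.add_mem ha hb
  smul_mem' := fun a v hv => by
    show ((a • v : Tors W' p) : (W'⁄Qbar).Point) ∈ Z
    rw [coe_zmod_smul]
    exact Z.nsmul_mem hv _

theorem mem_torsOfSub [NeZero p] {Z : AddSubgroup (W'⁄Qbar).Point} {v : Tors W' p} :
    v ∈ torsOfSub Z ↔ (v : (W'⁄Qbar).Point) ∈ Z := Iff.rfl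

/-- The points of a submodule of the torsion. -/
def subOfTors (M : Submodule (ZMod p) (Tors W' p)) : AddSubgroup (W'⁄Qbar).Point where
  carrier := {x | ∃ v : Tors W' p, v ∈ M ∧ (v : (W'⁄Qbar).Point) = x}
  zero_mem' := ⟨0, M.zero_mem, rfl⟩
  add_mem' := by
    rintro a b ⟨v, hv, rfl⟩ ⟨w, hw, rfl⟩
    exact ⟨v + w, M.add_mem hv hw, rfl⟩
  neg_mem' := by
    rintro a ⟨v, hv, rfl⟩
    exact ⟨-v, M.neg_mem hv, rfl⟩

theorem mem_subOfTors {M : Submodule (ZMod p) (Tors W' p)} {x : (W'⁄Qbar).Point} :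
    x ∈ subOfTors M ↔ ∃ v : Tors W' p, v ∈ M ∧ (v : (W'⁄Qbar).Point) = x := Iff.rfl

theorem coe_mem_subOfTors {M : Submodule (ZMod p) (Tors W' p)} {v : Tors W' p} (hv : v ∈ M) :
    (v : (W'⁄Qbar).Point) ∈ subOfTors M := ⟨v, hv, rfl⟩

theorem nsmul_eq_zero_of_mem_subOfTors {M : Submodule (ZMod p) (Tors W' p)}
    {x : (W'⁄Qbar).Point} (hx : x ∈ subOfTors M) : p • x = 0 := by
  obtain ⟨v, -, rfl⟩ := hx
  exact nsmul_coe v

theorem card_subOfTors (M : Submodule (ZMod p) (Tors W' p)) :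
    Nat.card (subOfTors M) = Nat.card M := by
  refine Nat.card_congr (Equiv.ofBijective
    (fun x : subOfTors M => (⟨⟨x.1, ?_⟩, ?_⟩ : M)) ⟨?_, ?_⟩)
  · exact (mem_tors_iff _).mpr (nsmul_eq_zero_of_mem_subOfTors x.2)
  · obtain ⟨v, hv, hvx⟩ := x.2
    have : (⟨x.1, (mem_tors_iff _).mpr (nsmul_eq_zero_of_mem_subOfTors x.2)⟩ : Tors W' p) = v :=
      Subtype.ext hvx.symm
    rw [this]
    exact hv
  · intro a b hab
    apply Subtype.ext
    exact congrArg (fun m : M => ((m : Tors W' p) : (W'⁄Qbar).Point)) hab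
  · intro m
    exact ⟨⟨(m : Tors W' p), m, m.2, rfl⟩, Subtype.ext (Subtype.ext rfl)⟩

theorem subOfTors_stable {M : Submodule (ZMod p) (Tors W' p)}
    (hM : ∀ σ : GQ, ∀ v ∈ M, σ • v ∈ M) (σ : GQ) {x : (W'⁄Qbar).Point} (hx : x ∈ subOfTors M) :
    σ • x ∈ subOfTors M := by
  obtain ⟨v, hv, rfl⟩ := hx
  exact ⟨σ • v, hM σ v hv, rfl⟩

end Fermat.Agent.S12.V5.TorsGlue
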